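import Mathlib
import Fermat.Agent.GE9.NumCrit.Defs
import Fermat.Agent.GE9.NumCrit.GorLemma

/-!
# GE9-NUMCRIT-MODFORM (S59 pre-work, helper50), file 1: the frame of the MODULE form

`O` a commutative ring, `T` a commutative `O`-algebra with an augmentation `π : T →ₐ[O] O`,
`𝔭 := ker π`, `I := Ann_T 𝔭` (`annP π`), `L` a `T`-module (compatible `O`-module).

* `torP π L = L[𝔭]`, `torI π L = L[I]` (as `T`-submodules), `Omega π L := L ⧸ (L[𝔭] ⊔ L[I])`;
* `AnnGen π x₀` : `I = O · x₀`;  consequences: `x₀ * t = π t • x₀`, `x₀ • L ⊆ L[𝔭]`,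
  `x₀ • l = 0 ↔ l ∈ L[I]`, `x₀ • l = π x₀ • l` on `L[𝔭]`, `etaIdeal π = (π x₀)`;
* `annGen_of_dual` : if `ω` generates `T^∨` (output of `(L3) exists_dual_generator`) then
  `I = O · x₀` with `x₀ · ω = π`.
-/

set_option linter.unusedSectionVars false

namespace Fermat.Agent.GE9.NumCrit.ModForm

open Fermat.Agent.GE9.NumCrit

variable {O T : Type*} [CommRing O] [CommRing T] [Algebra O T] (π : T →ₐ[O] O)

/-- `I = Ann_T (ker π)` -/
def annP : Ideal T := Submodule.annihilator (RingHom.ker (π : T →+* O))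

theorem mem_annP (a : T) : a ∈ annP π ↔ ∀ x : T, π x = 0 → a * x = 0 := by
  rw [annP, Submodule.mem_annihilator]
  constructor
  · intro h x hx
    have := h x (by simpa [RingHom.mem_ker] using hx)
    simpa [smul_eq_mul] using this
  · intro h x hx
    have hx' : π x = 0 := by simpa [RingHom.mem_ker] using hx
    simpa [smul_eq_mul] using h x hx'

theorem map_sub_algebraMap (t : T) : π (t - algebraMap O T (π t)) = 0 := by
  rw [map_sub, AlgHom.commutes, Algebra.algebraMap_self_apply, sub_self]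

theorem etaIdeal_eq_map_annP : etaIdeal π = Ideal.map (π : T →+* O) (annP π) := rfl

section Module

variable (L : Type*) [AddCommGroup L] [Module O L] [Module T L] [IsScalarTower O T L]

/-- `L[𝔭]` -/
def torP : Submodule T L where
  carrier := {l | ∀ t : T, π t = 0 → t • l = 0}
  add_mem' := fun {a b} ha hb t ht => by rw [smul_add, ha t ht, hb t ht, add_zero]
  zero_mem' := fun t _ => smul_zero t
  smul_mem' := fun c l hl t ht => by rw [smul_comm, hl t ht, smul_zero]

/-- `L[I]` -/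
def torI : Submodule T L where
  carrier := {l | ∀ a ∈ annP π, a • l = 0}
  add_mem' := fun {a b} ha hb t ht => by rw [smul_add, ha t ht, hb t ht, add_zero]
  zero_mem' := fun t _ => smul_zero t
  smul_mem' := fun c l hl t ht => by rw [smul_comm, hl t ht, smul_zero]

variable {L}

theorem mem_torP {l : L} : l ∈ torP π L ↔ ∀ t : T, π t = 0 → t • l = 0 := Iff.rfl

theorem mem_torI {l : L} : l ∈ torI π L ↔ ∀ a ∈ annP π, a • l = 0 := Iff.rfl

/-- on `L[𝔭]` the ring `T` acts through `π`. -/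
theorem smul_eq_of_mem_torP {l : L} (hl : l ∈ torP π L) (t : T) : t • l = π t • l := by
  have h := hl (t - algebraMap O T (π t)) (map_sub_algebraMap π t)
  rw [sub_smul, sub_eq_zero, algebraMap_smul] at h
  exact h

variable (L)

/-- the congruence module `Ω_L = L ⧸ (L[𝔭] ⊔ L[I])` -/
abbrev Omega : Type _ := L ⧸ (torP π L ⊔ torI π L)

end Module

/-- **`I = O · x₀`.** -/
structure AnnGen (x₀ : T) : Prop where
  mem : x₀ ∈ annP π
  gen : ∀ a ∈ annP π, ∃ c : O, a = c • x₀

namespace AnnGen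

variable {π} {x₀ : T} (h : AnnGen π x₀)
include h

theorem mul_eq (t : T) : x₀ * t = π t • x₀ := by
  have h1 := (mem_annP π x₀).mp h.mem (t - algebraMap O T (π t)) (map_sub_algebraMap π t)
  rw [mul_sub, sub_eq_zero] at h1
  rw [h1, Algebra.smul_def, mul_comm]

theorem etaIdeal_eq : etaIdeal π = Ideal.span {π x₀} := by
  ext c
  rw [mem_etaIdeal, Ideal.mem_span_singleton]
  constructor
  · rintro ⟨a, ha, rfl⟩
    obtain ⟨c', rfl⟩ := h.gen a ((mem_annP π a).mpr ha)
    exact ⟨c', by rw [map_smul, smul_eq_mul, mul_comm]⟩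
  · rintro ⟨c', rfl⟩
    refine ⟨c' • x₀, fun x hx => ?_, by rw [map_smul, smul_eq_mul, mul_comm]⟩
    rw [smul_mul_assoc, (mem_annP π x₀).mp h.mem x hx, smul_zero]

variable {L : Type*} [AddCommGroup L] [Module O L] [Module T L] [IsScalarTower O T L]

theorem smul_mem_torP (l : L) : x₀ • l ∈ torP π L := by
  intro t ht
  rw [smul_smul, mul_comm, (mem_annP π x₀).mp h.mem t ht, zero_smul]

theorem smul_eq_zero_iff (l : L) : x₀ • l = 0 ↔ l ∈ torI π L := by
  constructor
  · intro hl a ha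
    obtain ⟨c, rfl⟩ := h.gen a ha
    rw [smul_assoc, hl, smul_zero]
  · intro hl
    exact hl x₀ h.mem

theorem smul_of_mem_torP {l : L} (hl : l ∈ torP π L) : x₀ • l = π x₀ • l :=
  smul_eq_of_mem_torP π hl x₀

end AnnGen

/-- **Gorenstein ⟹ `I = O · x₀`** with `x₀ · ω = π`. -/
theorem annGen_of_dual [Module.Finite O T] [Module.Free O T] (ω : T →ₗ[O] O)
    (hω : ∀ g : T →ₗ[O] O, ∃ a : T, ∀ x, g x = ω (a * x)) :
    ∃ x₀ : T, (∀ x, π x = ω (x₀ * x)) ∧ AnnGen π x₀ := by
  obtain ⟨x₀, hx₀⟩ := hω (π : T →ₐ[O] O).toLinearMap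
  have hx₀' : ∀ x, π x = ω (x₀ * x) := hx₀
  refine ⟨x₀, hx₀', ⟨?_, ?_⟩⟩
  · rw [mem_annP]
    intro t ht
    apply eq_zero_of_dual ω hω
    intro x
    rw [mul_assoc, ← hx₀', map_mul, ht, zero_mul]
  · intro a ha
    refine ⟨ω a, ?_⟩
    have hsub : a - ω a • x₀ = 0 := by
      apply eq_zero_of_dual ω hω
      intro x
      -- `a * x = π x • a` since `a ∈ I`
      have h1 : a * x = π x • a := by
        have h2 := (mem_annP π a).mp ha (x - algebraMap O T (π x)) (map_sub_algebraMap π x)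
        rw [mul_sub, sub_eq_zero] at h2
        rw [h2, Algebra.smul_def, mul_comm]
      rw [sub_mul, map_sub, h1, map_smul, smul_mul_assoc, map_smul, ← hx₀', smul_eq_mul,
        smul_eq_mul, mul_comm, sub_self]
    exact sub_eq_zero.mp hsub

/-- **`η_T ≠ 0` ⟹ `I = O · x₀`** (no Gorenstein hypothesis): `O` a principal ideal domain,
`T` torsion-free over `O`. -/
theorem annGen_of_eta_ne_bot [IsDomain O] [IsPrincipalIdealRing O] [NoZeroSMulDivisors O T]
    (hη : etaIdeal π ≠ ⊥) : ∃ x₀ : T, π x₀ ≠ 0 ∧ AnnGen π x₀ := by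
  obtain ⟨e, he⟩ : ∃ e : O, etaIdeal π = Ideal.span {e} :=
    ⟨_, (Ideal.span_singleton_generator (etaIdeal π)).symm⟩
  have he0 : e ≠ 0 := by
    intro h0
    apply hη
    rw [he, h0, Ideal.span_singleton_eq_bot]
  have hemem : e ∈ etaIdeal π := by rw [he]; exact Ideal.mem_span_singleton_self e
  obtain ⟨x₀, hx₀, hπx₀⟩ := (mem_etaIdeal π e).mp hemem
  have hx₀I : x₀ ∈ annP π := (mem_annP π x₀).mpr hx₀
  refine ⟨x₀, by rw [hπx₀]; exact he0, hx₀I, ?_⟩
  intro a ha
  have hπa : π a ∈ etaIdeal π := (mem_etaIdeal π _).mpr ⟨a, (mem_annP π a).mp ha, rfl⟩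
  rw [he, Ideal.mem_span_singleton] at hπa
  obtain ⟨c, hc⟩ := hπa
  refine ⟨c, ?_⟩
  -- `y := a - c • x₀ ∈ I ∩ ker π` is killed by `e`
  set y := a - c • x₀ with hy
  have hyπ : π y = 0 := by
    rw [hy, map_sub, map_smul, hπx₀, hc, smul_eq_mul, mul_comm, sub_self]
  have hcx : c • x₀ ∈ annP π := by
    rw [Algebra.smul_def]
    exact (annP π).mul_mem_left _ hx₀I
  have hyI : y ∈ annP π := (annP π).sub_mem ha hcx
  have h1 : y * (x₀ - algebraMap O T (π x₀)) = 0 :=
    (mem_annP π y).mp hyI _ (map_sub_algebraMap π x₀)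
  have h2 : x₀ * y = 0 := hx₀ y hyπ
  have h3 : e • y = 0 := by
    rw [mul_sub, sub_eq_zero, mul_comm, h2, hπx₀] at h1
    rw [Algebra.smul_def, mul_comm]
    exact h1.symm
  have hy0 : y = 0 := (smul_eq_zero_iff_right he0).mp h3
  exact sub_eq_zero.mp hy0

end Fermat.Agent.GE9.NumCrit.ModForm
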