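import Mathlib
import Fermat.Agent.GE9.NumCrit.ModForm.Ann

/-!
# GE9-NUMCRIT-MODFORM, file 2: **(M1)** `#Ω_L ≤ #(O ⧸ η_T) ^ d`, and the equality case

Frame of `Ann.lean` with `I = O · x₀` (`AnnGen π x₀`), `e := π x₀` (so `η_T = (e)`), and a basis
`b` of `L[𝔭]` over `O` indexed by `Fin d`.

The `O`-linear map `Ψ : L → (O ⧸ (e)) ^ d`, `l ↦ coordinates of x₀ • l ∈ L[𝔭]` modulo `e`, has
kernel `L[𝔭] ⊔ L[I]`:

* `card_Omega_le` : `#Ω_L ≤ #(O ⧸ (e)) ^ d`  (`card_Omega_le_eta` : the same with `etaIdeal π`);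
* `exists_smul_eq_of_card_eq` : if equality holds then `x₀ • L = L[𝔭]`.
-/

set_option linter.unusedSectionVars false

namespace Fermat.Agent.GE9.NumCrit.ModForm

open Fermat.Agent.GE9.NumCrit

variable {O T L : Type*} [CommRing O] [CommRing T] [Algebra O T] {π : T →ₐ[O] O}
  [AddCommGroup L] [Module O L] [Module T L] [IsScalarTower O T L]

/-- `L[𝔭]` as an `O`-submodule -/
abbrev torPO (π : T →ₐ[O] O) (L : Type*) [AddCommGroup L] [Module O L] [Module T L]
    [IsScalarTower O T L] : Submodule O L := (torP π L).restrictScalars O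

variable {x₀ : T} (h : AnnGen π x₀) {d : ℕ} (b : Module.Basis (Fin d) O (torPO π L))

/-- multiplication by `x₀`, as an `O`-linear map `L → L[𝔭]` -/
noncomputable def mulX : L →ₗ[O] torPO π L where
  toFun l := ⟨x₀ • l, h.smul_mem_torP l⟩
  map_add' l l' := Subtype.ext (smul_add x₀ l l')
  map_smul' c l := Subtype.ext (smul_comm x₀ c l)

@[simp] theorem coe_mulX (l : L) : ((mulX h l : torPO π L) : L) = x₀ • l := rfl

include h b

/-- `Ψ : L → (O ⧸ (π x₀)) ^ d` -/
noncomputable def coordMap : L →ₗ[O] (Fin d → O ⧸ Ideal.span {π x₀}) :=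
  (LinearMap.compLeft (Submodule.mkQ (Ideal.span {π x₀})) (Fin d)) ∘ₗ
    b.equivFun.toLinearMap ∘ₗ mulX h

theorem coordMap_apply (l : L) (j : Fin d) :
    coordMap h b l j = Ideal.Quotient.mk (Ideal.span {π x₀}) (b.repr (mulX h l) j) := rfl

/-- an element of `L[𝔭]` all of whose coordinates are divisible by `e = π x₀` is `x₀ • p'`. -/
theorem exists_smul_of_coords (q : torPO π L)
    (hq : ∀ j, b.repr q j ∈ Ideal.span {π x₀}) :
    ∃ p' : torPO π L, (q : L) = x₀ • (p' : L) := by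
  choose c hc using fun j => Ideal.mem_span_singleton'.mp (hq j)
  refine ⟨∑ j, c j • b j, ?_⟩
  have h1 : q = π x₀ • ∑ j, c j • b j := by
    conv_lhs => rw [← b.sum_repr q]
    rw [Finset.smul_sum]
    refine Finset.sum_congr rfl fun j _ => ?_
    rw [smul_smul, ← hc j, mul_comm]
  have h2 : (q : L) = π x₀ • ((∑ j, c j • b j : torPO π L) : L) := by
    conv_lhs => rw [h1]
    rfl
  rw [h2, ← h.smul_of_mem_torP (∑ j, c j • b j : torPO π L).2]

theorem coordMap_eq_zero_iff (l : L) :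
    coordMap h b l = 0 ↔ l ∈ torP π L ⊔ torI π L := by
  constructor
  · intro hl
    have hq : ∀ j, b.repr (mulX h l) j ∈ Ideal.span {π x₀} := by
      intro j
      have := congrFun hl j
      rw [coordMap_apply, Pi.zero_apply, Ideal.Quotient.eq_zero_iff_mem] at this
      exact this
    obtain ⟨p', hp'⟩ := exists_smul_of_coords h b (mulX h l) hq
    rw [coe_mulX] at hp'
    have h3 : x₀ • (l - (p' : L)) = 0 := by rw [smul_sub, hp', sub_self]
    have h4 : l - (p' : L) ∈ torI π L := (h.smul_eq_zero_iff _).mp h3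
    have h5 : l = (p' : L) + (l - (p' : L)) := by abel
    rw [h5]
    exact Submodule.add_mem_sup p'.2 h4
  · intro hl
    obtain ⟨p, hp, i, hi, rfl⟩ := Submodule.mem_sup.mp hl
    funext j
    rw [coordMap_apply, Pi.zero_apply, Ideal.Quotient.eq_zero_iff_mem]
    have h1 : mulX h (p + i) = π x₀ • (⟨p, hp⟩ : torPO π L) := by
      apply Subtype.ext
      show x₀ • (p + i) = π x₀ • p
      rw [smul_add, (h.smul_eq_zero_iff i).mpr hi, add_zero, h.smul_of_mem_torP hp]
    rw [h1, map_smul, Finsupp.smul_apply, smul_eq_mul]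
    exact Ideal.mul_mem_right _ _ (Ideal.mem_span_singleton_self _)

/-- the injection `Ω_L ↪ (O ⧸ (e)) ^ d` -/
noncomputable def omegaMap :
    (L ⧸ (torP π L ⊔ torI π L).restrictScalars O) →ₗ[O] (Fin d → O ⧸ Ideal.span {π x₀}) :=
  Submodule.liftQ _ (coordMap h b) (fun l hl => by
    rw [LinearMap.mem_ker]
    exact (coordMap_eq_zero_iff h b l).mpr hl)

theorem omegaMap_injective : Function.Injective (omegaMap h b) := by
  rw [← LinearMap.ker_eq_bot, omegaMap, Submodule.ker_liftQ_eq_bot']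
  ext l
  rw [LinearMap.mem_ker, coordMap_eq_zero_iff]
  rfl

omit h b in
theorem card_Omega_eq :
    Nat.card (Omega π L) = Nat.card (L ⧸ (torP π L ⊔ torI π L).restrictScalars O) :=
  Nat.card_congr (Submodule.Quotient.restrictScalarsEquiv O (torP π L ⊔ torI π L)).symm.toEquiv

omit h b [AddCommGroup L] [Module O L] [Module T L] [IsScalarTower O T L] in
theorem card_target (π : T →ₐ[O] O) (x₀ : T) (d : ℕ) :
    Nat.card (Fin d → O ⧸ Ideal.span {π x₀}) = Nat.card (O ⧸ Ideal.span {π x₀}) ^ d := by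
  rw [Nat.card_fun, Nat.card_fin]

/-- **(M1)** `#Ω_L ≤ #(O ⧸ (π x₀)) ^ d`. -/
theorem card_Omega_le [Finite (O ⧸ Ideal.span {π x₀})] :
    Nat.card (Omega π L) ≤ Nat.card (O ⧸ Ideal.span {π x₀}) ^ d := by
  rw [card_Omega_eq, ← card_target π x₀ d]
  exact Nat.card_le_card_of_injective _ (omegaMap_injective h b)

/-- **(M1)** in terms of the congruence ideal `η_T`. -/
theorem card_Omega_le_eta [Finite (O ⧸ etaIdeal π)] :
    Nat.card (Omega π L) ≤ Nat.card (O ⧸ etaIdeal π) ^ d := by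
  have he := h.etaIdeal_eq
  have : Finite (O ⧸ Ideal.span {π x₀}) := by rw [← he]; infer_instance
  have := card_Omega_le h b
  rwa [← he] at this

/-- **equality case of (M1)**: `#Ω_L = #(O ⧸ (π x₀)) ^ d` ⟹ `x₀ • L = L[𝔭]`. -/
theorem exists_smul_eq_of_card_eq [Finite (O ⧸ Ideal.span {π x₀})]
    (hcard : Nat.card (Omega π L) = Nat.card (O ⧸ Ideal.span {π x₀}) ^ d)
    {p : L} (hp : p ∈ torP π L) : ∃ l : L, x₀ • l = p := by
  have hbij : Function.Bijective (omegaMap h b) := by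
    refine (omegaMap_injective h b).bijective_of_nat_card_le ?_
    rw [card_target π x₀ d, ← hcard, card_Omega_eq]
  -- the target vector: coordinates of `p`
  let v : Fin d → O ⧸ Ideal.span {π x₀} := fun j =>
    Ideal.Quotient.mk _ (b.repr (⟨p, hp⟩ : torPO π L) j)
  obtain ⟨w, hw⟩ := hbij.2 v
  obtain ⟨l, rfl⟩ := Submodule.Quotient.mk_surjective _ w
  have hl : coordMap h b l = v := hw
  have hq : ∀ j, b.repr (mulX h l - ⟨p, hp⟩) j ∈ Ideal.span {π x₀} := by
    intro j
    have := congrFun hl j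
    rw [coordMap_apply] at this
    rw [map_sub, Finsupp.sub_apply, ← Ideal.Quotient.eq]
    exact this
  obtain ⟨p', hp'⟩ := exists_smul_of_coords h b _ hq
  refine ⟨l - (p' : L), ?_⟩
  have h1 : ((mulX h l - ⟨p, hp⟩ : torPO π L) : L) = x₀ • l - p := rfl
  rw [h1] at hp'
  rw [smul_sub, ← hp']
  abel

/-- equality case in terms of `η_T`. -/
theorem exists_smul_eq_of_card_eq_eta [Finite (O ⧸ etaIdeal π)]
    (hcard : Nat.card (Omega π L) = Nat.card (O ⧸ etaIdeal π) ^ d)
    {p : L} (hp : p ∈ torP π L) : ∃ l : L, x₀ • l = p := by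
  have he := h.etaIdeal_eq
  have : Finite (O ⧸ Ideal.span {π x₀}) := by rw [← he]; infer_instance
  rw [he] at hcard
  exact exists_smul_eq_of_card_eq h b hcard hp

omit h b in
/-- **(M1), general form** (no Gorenstein hypothesis): `O` a principal ideal domain, `T`
torsion-free over `O`, `η_T ≠ 0`, `b` a basis of `L[𝔭]`: `#Ω_L ≤ #(O ⧸ η_T) ^ d`. -/
theorem card_Omega_le_eta_of_ne_bot [IsDomain O] [IsPrincipalIdealRing O]
    [NoZeroSMulDivisors O T] (hη : etaIdeal π ≠ ⊥) {d : ℕ}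
    (b : Module.Basis (Fin d) O (torPO π L)) [Finite (O ⧸ etaIdeal π)] :
    Nat.card (Omega π L) ≤ Nat.card (O ⧸ etaIdeal π) ^ d := by
  obtain ⟨x₀, -, hgen⟩ := annGen_of_eta_ne_bot π hη
  exact card_Omega_le_eta hgen b

end Fermat.Agent.GE9.NumCrit.ModForm
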