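import Mathlib
import Fermat.Agent.GE9.NumCrit.ModForm.Omega
import Fermat.Agent.GE9.Eta.Abstract
import Fermat.Agent.GE9.Ind.Step

/-!
# GE9-MODFORM-ETA-BRIDGE (S59 pre-work, helper50): the `hM1` seam of `Ind.chain`

`Ind.chain` carries `w n := Nat.card (Eta.CongMod B_n (span (range b_n)))` (helper2's congruence
module `L ⧸ (P ⊔ P^⊥)` of a lattice with a pairing) and asks for `hM1 : w n ≤ etaCard (πT n) ^ d`.
`ModForm/Omega.lean` proves `#Ω_L ≤ #(O ⧸ η_T) ^ d` for `Ω_L = L ⧸ (L[𝔭] ⊔ L[I])`, `I = Ann_T 𝔭`.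

Bridge: for a `T`-adjoint (`B (t x) y = B x (t y)`), right non-degenerate `O`-bilinear `B` on `L`,
`O` without zero divisors and `x₀ ∈ I` with `π x₀ ≠ 0` (i.e. `η_T ≠ 0`),

* `orth_torPO` : `(L[𝔭])^⊥ = L[I]`;
* `congModEquivOmega`, `card_congMod_eq_card_Omega` : `CongMod B L[𝔭] ≃ₗ[O] Ω_L`;
* `hM1_of_annGen`, `hM1_of_eta_ne_bot` : the binder `hM1` of `Ind.chain` / `Ind.step`,
  in their spelling (family `b : Fin d → L`, linearly independent, spanning `L[𝔭]`);
* `smul_surjective_of_card_congMod_eq` : the equality case (`x₀ • L = L[𝔭]`) in the same spelling.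
-/

set_option linter.unusedSectionVars false

namespace Fermat.Agent.GE9.NumCrit.ModForm

open Fermat.Agent.GE9.NumCrit Fermat.Agent.GE9 Submodule

variable {O T L : Type*} [CommRing O] [CommRing T] [Algebra O T] {π : T →ₐ[O] O}
  [AddCommGroup L] [Module O L] [Module T L] [IsScalarTower O T L]

/-- `L[I] ⊆ (L[𝔭])^⊥` : needs an element `x₀ ∈ I` with `π x₀` a non-zero-divisor. -/
theorem torI_le_orth [NoZeroDivisors O] (B : L →ₗ[O] L →ₗ[O] O)
    (hadj : ∀ (t : T) (x y : L), B (t • x) y = B x (t • y))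
    {x₀ : T} (hx₀ : x₀ ∈ annP π) (hπx₀ : π x₀ ≠ 0) :
    (torI π L).restrictScalars O ≤ Eta.orth B (torPO π L) := by
  intro x hx y hy
  have hx' : x₀ • x = 0 := hx x₀ hx₀
  have hy' : x₀ • y = π x₀ • y := smul_eq_of_mem_torP π hy x₀
  have h1 : π x₀ * B y x = 0 := by
    rw [← smul_eq_mul, ← LinearMap.smul_apply, ← map_smul, ← hy', hadj, hx', map_zero]
  exact (mul_eq_zero.mp h1).resolve_left hπx₀

/-- `(L[𝔭])^⊥ ⊆ L[I]` : needs right non-degeneracy of `B`. -/
theorem orth_le_torI (B : L →ₗ[O] L →ₗ[O] O)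
    (hadj : ∀ (t : T) (x y : L), B (t • x) y = B x (t • y))
    (hnd : ∀ w : L, (∀ z : L, B z w = 0) → w = 0) :
    Eta.orth B (torPO π L) ≤ (torI π L).restrictScalars O := by
  intro x hx a ha
  apply hnd
  intro z
  rw [← hadj]
  refine hx (a • z) ?_
  intro t ht
  rw [smul_smul, mul_comm, (mem_annP π a).mp ha t ht, zero_smul]

/-- **`(L[𝔭])^⊥ = L[I]`** under a `T`-adjoint non-degenerate pairing, `η_T ≠ 0`. -/
theorem orth_torPO [NoZeroDivisors O] (B : L →ₗ[O] L →ₗ[O] O)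
    (hadj : ∀ (t : T) (x y : L), B (t • x) y = B x (t • y))
    (hnd : ∀ w : L, (∀ z : L, B z w = 0) → w = 0)
    {x₀ : T} (hx₀ : x₀ ∈ annP π) (hπx₀ : π x₀ ≠ 0) :
    Eta.orth B (torPO π L) = (torI π L).restrictScalars O :=
  le_antisymm (orth_le_torI B hadj hnd) (torI_le_orth B hadj hx₀ hπx₀)

/-- the two denominators agree. -/
theorem sup_orth_eq [NoZeroDivisors O] (B : L →ₗ[O] L →ₗ[O] O)
    (hadj : ∀ (t : T) (x y : L), B (t • x) y = B x (t • y))
    (hnd : ∀ w : L, (∀ z : L, B z w = 0) → w = 0)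
    {x₀ : T} (hx₀ : x₀ ∈ annP π) (hπx₀ : π x₀ ≠ 0) :
    torPO π L ⊔ Eta.orth B (torPO π L) = (torP π L ⊔ torI π L).restrictScalars O := by
  rw [orth_torPO B hadj hnd hx₀ hπx₀, restrictScalars_sup]

/-- **helper2's congruence module of `L[𝔭]` is `Ω_L`.** -/
noncomputable def congModEquivOmega [NoZeroDivisors O] (B : L →ₗ[O] L →ₗ[O] O)
    (hadj : ∀ (t : T) (x y : L), B (t • x) y = B x (t • y))
    (hnd : ∀ w : L, (∀ z : L, B z w = 0) → w = 0)
    {x₀ : T} (hx₀ : x₀ ∈ annP π) (hπx₀ : π x₀ ≠ 0) :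
    Eta.CongMod B (torPO π L) ≃ₗ[O] Omega π L :=
  (Submodule.quotEquivOfEq _ _ (sup_orth_eq B hadj hnd hx₀ hπx₀)).trans
    (Submodule.Quotient.restrictScalarsEquiv O (torP π L ⊔ torI π L))

theorem card_congMod_eq_card_Omega [NoZeroDivisors O] (B : L →ₗ[O] L →ₗ[O] O)
    (hadj : ∀ (t : T) (x y : L), B (t • x) y = B x (t • y))
    (hnd : ∀ w : L, (∀ z : L, B z w = 0) → w = 0)
    {x₀ : T} (hx₀ : x₀ ∈ annP π) (hπx₀ : π x₀ ≠ 0) :
    Nat.card (Eta.CongMod B (torPO π L)) = Nat.card (Omega π L) :=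
  Nat.card_congr (congModEquivOmega B hadj hnd hx₀ hπx₀).toEquiv

/-- the same with the submodule spelled `span (range b)` (the spelling of `Ind.Plug.heta_of_gram`). -/
theorem card_congMod_span_eq_card_Omega [NoZeroDivisors O] (B : L →ₗ[O] L →ₗ[O] O)
    (hadj : ∀ (t : T) (x y : L), B (t • x) y = B x (t • y))
    (hnd : ∀ w : L, (∀ z : L, B z w = 0) → w = 0)
    {x₀ : T} (hx₀ : x₀ ∈ annP π) (hπx₀ : π x₀ ≠ 0)
    {ι : Type*} (b : ι → L) (hspan : span O (Set.range b) = torPO π L) :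
    Nat.card (Eta.CongMod B (span O (Set.range b))) = Nat.card (Omega π L) := by
  rw [hspan]
  exact card_congMod_eq_card_Omega B hadj hnd hx₀ hπx₀

/-- a linearly independent spanning family of `L[𝔭]`, as a basis of `torPO π L`. -/
noncomputable def basisOfSpan {d : ℕ} (b : Fin d → L) (hli : LinearIndependent O b)
    (hspan : span O (Set.range b) = torPO π L) : Module.Basis (Fin d) O (torPO π L) :=
  (Module.Basis.span hli).map (LinearEquiv.ofEq _ _ hspan)

theorem basisOfSpan_apply {d : ℕ} (b : Fin d → L) (hli : LinearIndependent O b)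
    (hspan : span O (Set.range b) = torPO π L) (i : Fin d) :
    ((basisOfSpan b hli hspan i : torPO π L) : L) = b i := by
  rw [basisOfSpan, Module.Basis.map_apply, LinearEquiv.coe_ofEq_apply, Module.Basis.span_apply]

/-- **`hM1` of `Ind.chain`** from `I = O · x₀`, `π x₀ ≠ 0`. -/
theorem hM1_of_annGen [NoZeroDivisors O] (B : L →ₗ[O] L →ₗ[O] O)
    (hadj : ∀ (t : T) (x y : L), B (t • x) y = B x (t • y))
    (hnd : ∀ w : L, (∀ z : L, B z w = 0) → w = 0)
    {x₀ : T} (h : AnnGen π x₀) (hπx₀ : π x₀ ≠ 0) [Finite (O ⧸ etaIdeal π)]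
    {d : ℕ} (b : Fin d → L) (hli : LinearIndependent O b)
    (hspan : span O (Set.range b) = torPO π L) :
    Nat.card (Eta.CongMod B (span O (Set.range b))) ≤ Ind.etaCard π ^ d := by
  rw [card_congMod_span_eq_card_Omega B hadj hnd h.mem hπx₀ b hspan]
  exact card_Omega_le_eta h (basisOfSpan b hli hspan)

/-- **`hM1` of `Ind.chain`**, general form: `O` a principal ideal domain, `T` torsion-free,
`η_T ≠ 0` (the binder `hη` of `chain`). -/
theorem hM1_of_eta_ne_bot [IsDomain O] [IsPrincipalIdealRing O] [NoZeroSMulDivisors O T]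
    (B : L →ₗ[O] L →ₗ[O] O)
    (hadj : ∀ (t : T) (x y : L), B (t • x) y = B x (t • y))
    (hnd : ∀ w : L, (∀ z : L, B z w = 0) → w = 0)
    (hη : etaIdeal π ≠ ⊥) [Finite (O ⧸ etaIdeal π)]
    {d : ℕ} (b : Fin d → L) (hli : LinearIndependent O b)
    (hspan : span O (Set.range b) = torPO π L) :
    Nat.card (Eta.CongMod B (span O (Set.range b))) ≤ Ind.etaCard π ^ d := by
  obtain ⟨x₀, hπx₀, hgen⟩ := annGen_of_eta_ne_bot π hη
  exact hM1_of_annGen B hadj hnd hgen hπx₀ b hli hspan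

/-- **equality case** in the spelling of `Ind.chain`: if `w = etaCard ^ d` then `x₀ • L = L[𝔭]`. -/
theorem smul_surjective_of_card_congMod_eq [NoZeroDivisors O] (B : L →ₗ[O] L →ₗ[O] O)
    (hadj : ∀ (t : T) (x y : L), B (t • x) y = B x (t • y))
    (hnd : ∀ w : L, (∀ z : L, B z w = 0) → w = 0)
    {x₀ : T} (h : AnnGen π x₀) (hπx₀ : π x₀ ≠ 0) [Finite (O ⧸ etaIdeal π)]
    {d : ℕ} (b : Fin d → L) (hli : LinearIndependent O b)
    (hspan : span O (Set.range b) = torPO π L)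
    (hcard : Nat.card (Eta.CongMod B (span O (Set.range b))) = Ind.etaCard π ^ d)
    {p : L} (hp : p ∈ torP π L) : ∃ l : L, x₀ • l = p := by
  rw [card_congMod_span_eq_card_Omega B hadj hnd h.mem hπx₀ b hspan] at hcard
  exact exists_smul_eq_of_card_eq_eta h (basisOfSpan b hli hspan) hcard hp

end Fermat.Agent.GE9.NumCrit.ModForm
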