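import Mathlib
import Fermat.Agent.GE9.NumCrit.ModForm.EtaBridge

/-!
# GE9-MODFORM-ETA-BASE (S59 pre-work, helper50): the base clause `(B2)` of `Ind.chain`

`(B2)` : `w 0 = etaCard (πT 0) ^ d` when the Hecke module at the minimal level is free, `L ≅ T^k`.

* `omegaMap_surjective`, `card_Omega_eq_of_smul_surjective` : the converse of the equality case of
  `(M1)` — if `x₀ • L = L[𝔭]` then `#Ω_L = #(O ⧸ η_T) ^ d`;
* `smul_surjective_of_free` : for `L ≃ₗ[T] T^k`, `x₀ • L = L[𝔭]`;
* `singleFam e x₀ i := e.symm (Pi.single i x₀)` : the explicit `O`-basis of `L[𝔭]`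
  (`linearIndependent_singleFam`, `span_singleFam`);
* `card_Omega_of_free`, `hB2_of_free`, `hB2_of_free_single` : `(B2)` in the spelling of `Ind.chain`.
-/

set_option linter.unusedSectionVars false

namespace Fermat.Agent.GE9.NumCrit.ModForm

open Fermat.Agent.GE9.NumCrit Fermat.Agent.GE9 Submodule

variable {O T L : Type*} [CommRing O] [CommRing T] [Algebra O T] {π : T →ₐ[O] O}
  [AddCommGroup L] [Module O L] [Module T L] [IsScalarTower O T L]

section Converse

variable {x₀ : T} (h : AnnGen π x₀) {d : ℕ} (b : Module.Basis (Fin d) O (torPO π L))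

include h b

/-- if `x₀ • L = L[𝔭]` then `Ω_L → (O ⧸ (π x₀)) ^ d` is onto. -/
theorem omegaMap_surjective (hsurj : ∀ p ∈ torP π L, ∃ l : L, x₀ • l = p) :
    Function.Surjective (omegaMap h b) := by
  intro v
  choose c hc using fun j => Ideal.Quotient.mk_surjective (v j)
  obtain ⟨l, hl⟩ := hsurj (∑ j, c j • b j : torPO π L).1 (∑ j, c j • b j : torPO π L).2
  refine ⟨Submodule.Quotient.mk l, ?_⟩
  funext j
  have h1 : mulX h l = ∑ j, c j • b j := Subtype.ext hl
  show coordMap h b l j = v j
  rw [coordMap_apply, h1, ← hc j]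
  congr 1
  rw [map_sum, Finsupp.coe_finsetSum, Finset.sum_apply]
  rw [Finset.sum_eq_single j]
  · rw [map_smul, Module.Basis.repr_self, Finsupp.smul_apply, Finsupp.single_eq_same,
      smul_eq_mul, mul_one]
  · intro i _ hij
    rw [map_smul, Module.Basis.repr_self, Finsupp.smul_apply, Finsupp.single_apply, if_neg hij,
      smul_zero]
  · intro hj
    exact absurd (Finset.mem_univ j) hj

/-- **converse of the equality case of (M1)**. -/
theorem card_Omega_eq_of_smul_surjective (hsurj : ∀ p ∈ torP π L, ∃ l : L, x₀ • l = p) :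
    Nat.card (Omega π L) = Nat.card (O ⧸ Ideal.span {π x₀}) ^ d := by
  rw [card_Omega_eq, ← card_target π x₀ d]
  exact Nat.card_congr
    (Equiv.ofBijective _ ⟨omegaMap_injective h b, omegaMap_surjective h b hsurj⟩)

theorem card_Omega_eq_eta_of_smul_surjective (hsurj : ∀ p ∈ torP π L, ∃ l : L, x₀ • l = p) :
    Nat.card (Omega π L) = Nat.card (O ⧸ etaIdeal π) ^ d := by
  rw [h.etaIdeal_eq]
  exact card_Omega_eq_of_smul_surjective h b hsurj

end Converse

section Free

variable {x₀ : T} (h : AnnGen π x₀) {k : ℕ} (e : L ≃ₗ[T] (Fin k → T))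

include e in
/-- coordinates of an element of `L[𝔭]` lie in `I`. -/
theorem coord_mem_annP {p : L} (hp : p ∈ torP π L) (i : Fin k) : e p i ∈ annP π := by
  rw [mem_annP]
  intro t ht
  have h1 : t • p = 0 := hp t ht
  have h2 : e (t • p) i = 0 := by rw [h1, map_zero]; rfl
  rw [map_smul, Pi.smul_apply, smul_eq_mul] at h2
  rw [mul_comm]
  exact h2

include h e in
/-- for a free module `L ≅ T^k`, `x₀ • L = L[𝔭]`. -/
theorem smul_surjective_of_free {p : L} (hp : p ∈ torP π L) : ∃ l : L, x₀ • l = p := by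
  choose c hc using fun i => h.gen (e p i) (coord_mem_annP e hp i)
  refine ⟨e.symm fun i => algebraMap O T (c i), ?_⟩
  apply e.injective
  rw [map_smul, LinearEquiv.apply_symm_apply]
  funext i
  rw [Pi.smul_apply, smul_eq_mul, hc i, Algebra.smul_def, mul_comm]

/-- the explicit `O`-basis of `L[𝔭]` for `L ≅ T^k`. -/
noncomputable def singleFam (x₀ : T) (i : Fin k) : L := e.symm (Pi.single i x₀)

theorem apply_singleFam (x₀ : T) (i : Fin k) : e (singleFam e x₀ i) = Pi.single i x₀ :=
  e.apply_symm_apply _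

include h in
theorem singleFam_mem_torP (i : Fin k) : singleFam e x₀ i ∈ torP π L := by
  have h1 : singleFam e x₀ i = x₀ • e.symm (Pi.single i 1) := by
    rw [singleFam, ← map_smul]
    congr 1
    funext j
    by_cases hj : j = i
    · subst hj
      rw [Pi.smul_apply, Pi.single_eq_same, Pi.single_eq_same, smul_eq_mul, mul_one]
    · rw [Pi.smul_apply, Pi.single_eq_of_ne hj, Pi.single_eq_of_ne hj, smul_zero]
  rw [h1]
  exact h.smul_mem_torP _

theorem linearIndependent_singleFam [NoZeroDivisors O] (hπx₀ : π x₀ ≠ 0) :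
    LinearIndependent O (singleFam e x₀) := by
  rw [Fintype.linearIndependent_iff]
  intro g hg i
  have h1 : (e.restrictScalars O) (∑ j, g j • singleFam e x₀ j) = 0 := by rw [hg, map_zero]
  rw [map_sum] at h1
  have h2 := congrFun h1 i
  rw [Finset.sum_apply, Pi.zero_apply, Finset.sum_eq_single i] at h2
  · rw [map_smul, LinearEquiv.restrictScalars_apply, apply_singleFam, Pi.smul_apply,
      Pi.single_eq_same] at h2
    have h3 : π (g i • x₀) = 0 := by rw [h2, map_zero]
    rw [map_smul, smul_eq_mul] at h3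
    exact (mul_eq_zero.mp h3).resolve_right hπx₀
  · intro j _ hji
    rw [map_smul, LinearEquiv.restrictScalars_apply, apply_singleFam, Pi.smul_apply,
      Pi.single_eq_of_ne (Ne.symm hji), smul_zero]
  · intro hi
    exact absurd (Finset.mem_univ i) hi

include h in
theorem span_singleFam : span O (Set.range (singleFam e x₀)) = torPO π L := by
  apply le_antisymm
  · rw [span_le]
    rintro _ ⟨i, rfl⟩
    exact singleFam_mem_torP h e i
  · intro p hp
    have hp' : p ∈ torP π L := hp
    choose c hc using fun i => h.gen (e p i) (coord_mem_annP e hp' i)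
    have h1 : p = ∑ i, c i • singleFam e x₀ i := by
      apply (e.restrictScalars O).injective
      rw [map_sum]
      funext i
      rw [Finset.sum_apply, Finset.sum_eq_single i]
      · rw [map_smul, LinearEquiv.restrictScalars_apply, LinearEquiv.restrictScalars_apply,
          apply_singleFam, Pi.smul_apply, Pi.single_eq_same, hc i]
      · intro j _ hji
        rw [map_smul, LinearEquiv.restrictScalars_apply, apply_singleFam, Pi.smul_apply,
          Pi.single_eq_of_ne (Ne.symm hji), smul_zero]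
      · intro hi
        exact absurd (Finset.mem_univ i) hi
    rw [h1]
    exact Submodule.sum_mem _ fun i _ =>
      Submodule.smul_mem _ _ (subset_span ⟨i, rfl⟩)

include h e in
/-- `#Ω_L = #(O ⧸ η_T) ^ d` for a free module (any basis `b` of `L[𝔭]`). -/
theorem card_Omega_of_free {d : ℕ} (b : Module.Basis (Fin d) O (torPO π L)) :
    Nat.card (Omega π L) = Nat.card (O ⧸ etaIdeal π) ^ d :=
  card_Omega_eq_eta_of_smul_surjective h b fun _ hp => smul_surjective_of_free h e hp

include h e in
/-- **(B2) of `Ind.chain`** for a free `L ≅ T^k`, any independent spanning family of `L[𝔭]`. -/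
theorem hB2_of_free [NoZeroDivisors O] (B : L →ₗ[O] L →ₗ[O] O)
    (hadj : ∀ (t : T) (x y : L), B (t • x) y = B x (t • y))
    (hnd : ∀ w : L, (∀ z : L, B z w = 0) → w = 0) (hπx₀ : π x₀ ≠ 0)
    {d : ℕ} (b : Fin d → L) (hli : LinearIndependent O b)
    (hspan : span O (Set.range b) = torPO π L) :
    Nat.card (Eta.CongMod B (span O (Set.range b))) = Ind.etaCard π ^ d := by
  rw [card_congMod_span_eq_card_Omega B hadj hnd h.mem hπx₀ b hspan]
  exact card_Omega_of_free h e (basisOfSpan b hli hspan)

include h in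
/-- **(B2) of `Ind.chain`** with the explicit family `b i = e⁻¹ (x₀ · eᵢ)` (so `d = k`). -/
theorem hB2_of_free_single [NoZeroDivisors O] (B : L →ₗ[O] L →ₗ[O] O)
    (hadj : ∀ (t : T) (x y : L), B (t • x) y = B x (t • y))
    (hnd : ∀ w : L, (∀ z : L, B z w = 0) → w = 0) (hπx₀ : π x₀ ≠ 0) :
    Nat.card (Eta.CongMod B (span O (Set.range (singleFam e x₀)))) = Ind.etaCard π ^ k :=
  hB2_of_free h e B hadj hnd hπx₀ _ (linearIndependent_singleFam e hπx₀) (span_singleFam h e)

include e in
/-- **(B2) of `Ind.chain`**, general form: `O` a principal ideal domain, `T` torsion-free,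
`η_T ≠ 0`, `L ≅ T^k`, any independent spanning family of `L[𝔭]`. -/
theorem hB2_of_free_eta [IsDomain O] [IsPrincipalIdealRing O] [NoZeroSMulDivisors O T]
    (B : L →ₗ[O] L →ₗ[O] O)
    (hadj : ∀ (t : T) (x y : L), B (t • x) y = B x (t • y))
    (hnd : ∀ w : L, (∀ z : L, B z w = 0) → w = 0) (hη : etaIdeal π ≠ ⊥)
    {d : ℕ} (b : Fin d → L) (hli : LinearIndependent O b)
    (hspan : span O (Set.range b) = torPO π L) :
    Nat.card (Eta.CongMod B (span O (Set.range b))) = Ind.etaCard π ^ d := by
  obtain ⟨x₀, hπx₀, hgen⟩ := annGen_of_eta_ne_bot π hη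
  exact hB2_of_free hgen e B hadj hnd hπx₀ b hli hspan

include e in
/-- existence form: for `L ≅ T^k` there is an `O`-basis `b : Fin k → L` of `L[𝔭]` with
`#(L ⧸ (P ⊔ P^⊥)) = etaCard ^ k`. -/
theorem exists_fam_hB2_of_free [IsDomain O] [IsPrincipalIdealRing O] [NoZeroSMulDivisors O T]
    (B : L →ₗ[O] L →ₗ[O] O)
    (hadj : ∀ (t : T) (x y : L), B (t • x) y = B x (t • y))
    (hnd : ∀ w : L, (∀ z : L, B z w = 0) → w = 0) (hη : etaIdeal π ≠ ⊥) :
    ∃ b : Fin k → L, LinearIndependent O b ∧ span O (Set.range b) = torPO π L ∧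
      Nat.card (Eta.CongMod B (span O (Set.range b))) = Ind.etaCard π ^ k := by
  obtain ⟨x₀, hπx₀, hgen⟩ := annGen_of_eta_ne_bot π hη
  exact ⟨singleFam e x₀, linearIndependent_singleFam e hπx₀, span_singleFam hgen e,
    hB2_of_free_single hgen e B hadj hnd hπx₀⟩

end Free

end Fermat.Agent.GE9.NumCrit.ModForm
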