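import Mathlib
import Fermat.Agent.GE9.NumCrit.ModForm.EtaBridge

/-!
# GE9-MODFORM-ETA-HEXT (S59 pre-work, helper50): the binders `hext`, `hnd` from a PERFECT pairing

`Eta.card_congMod(_growth)` / `Ind.heta_of_gram` ask for
`hext : ∀ a : Fin d → O, ∃ x : L, ∀ i, B (b i) x = a i`.  `EtaBridge` asks for right non-degeneracy
`hnd`.  Both follow from `hperf : ∀ φ : L →ₗ[O] O, ∃ x, ∀ y, B y x = φ y` (the spelling of
`Eta.exists_rep_of_perfect`) when `L` is finite free over the PID `O` and `b` is a basis of `L[𝔭]`.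

* `torPO_saturated` : `c ≠ 0`, `c • l ∈ L[𝔭]` ⟹ `l ∈ L[𝔭]` (`L` torsion-free over `O`);
* `hext_of_perfect` : `hext` for an independent family spanning `L[𝔭]`;
* `hnd_of_perfect` : right non-degeneracy from `hperf` (`L` finite free).
-/

set_option linter.unusedSectionVars false

namespace Fermat.Agent.GE9.NumCrit.ModForm

open Fermat.Agent.GE9.NumCrit Fermat.Agent.GE9 Submodule

variable {O T L : Type*} [CommRing O] [CommRing T] [Algebra O T] {π : T →ₐ[O] O}
  [AddCommGroup L] [Module O L] [Module T L] [IsScalarTower O T L]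

/-- `L[𝔭]` is saturated in a torsion-free `L`. -/
theorem torPO_saturated [NoZeroSMulDivisors O L] (c : O) (l : L) (hc : c ≠ 0)
    (hl : c • l ∈ torPO π L) : l ∈ torPO π L := by
  intro t ht
  have h1 : t • c • l = 0 := hl t ht
  rw [smul_comm] at h1
  exact (eq_zero_or_eq_zero_of_smul_eq_zero h1).resolve_left hc

/-- **`hext` from a perfect pairing**: every tuple of values on a basis of `L[𝔭]` is represented. -/
theorem hext_of_perfect [IsDomain O] [IsPrincipalIdealRing O] [Module.Finite O L]
    [NoZeroSMulDivisors O L] (B : L →ₗ[O] L →ₗ[O] O)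
    (hperf : ∀ φ : L →ₗ[O] O, ∃ x : L, ∀ y, B y x = φ y)
    {d : ℕ} (b : Fin d → L) (hli : LinearIndependent O b)
    (hspan : span O (Set.range b) = torPO π L) (a : Fin d → O) :
    ∃ x : L, ∀ i, B (b i) x = a i := by
  obtain ⟨r, hr⟩ := Eta.exists_retraction_of_saturated (torPO π L)
    (fun c x hc hx => torPO_saturated c x hc hx)
  obtain ⟨x, hx⟩ := Eta.exists_rep_of_perfect B hperf (torPO π L) r hr
    (basisOfSpan b hli hspan) a
  refine ⟨x, fun i => ?_⟩
  rw [← hx i, basisOfSpan_apply]

/-- **right non-degeneracy from perfectness** (`L` finite free). -/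
theorem hnd_of_perfect [Nontrivial O] [Module.Finite O L] [Module.Free O L]
    (B : L →ₗ[O] L →ₗ[O] O)
    (hperf : ∀ φ : L →ₗ[O] O, ∃ x : L, ∀ y, B y x = φ y)
    (w : L) (hw : ∀ z : L, B z w = 0) : w = 0 := by
  -- `x ↦ B (·) x` is a surjection `L → L^*`, hence injective
  let β := Module.Free.chooseBasis O L
  let f : L →ₗ[O] L := β.toDualEquiv.symm.toLinearMap ∘ₗ B.flip
  have hsurj : Function.Surjective f := by
    intro y
    obtain ⟨x, hx⟩ := hperf (β.toDualEquiv y)
    refine ⟨x, ?_⟩
    show β.toDualEquiv.symm (B.flip x) = y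
    rw [LinearEquiv.symm_apply_eq]
    ext z
    rw [LinearMap.flip_apply, hx]
  have hinj : Function.Injective f := OrzechProperty.injective_of_surjective_endomorphism f hsurj
  apply hinj
  rw [map_zero]
  show β.toDualEquiv.symm (B.flip w) = 0
  rw [LinearEquiv.symm_apply_eq, map_zero]
  ext z
  rw [LinearMap.flip_apply, hw, LinearMap.zero_apply]

end Fermat.Agent.GE9.NumCrit.ModForm
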