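import Mathlib
import Fermat.Agent.GE9.NumCrit.ModForm.EtaHext

/-!
# GE9-MODFORM-ETA-DET (S59 pre-work, helper50): the binder `hdet` of `Eta.card_congMod(_growth)`

`Eta.card_congMod`, `Eta.card_congMod_growth(_three)` and `Ind.heta_of_gram` ask for
`hdet : (Eta.gram B b).det ≠ 0`.  In the frame of `EtaBridge` (`B` `T`-adjoint and right
non-degenerate, `x₀ ∈ I = Ann_T 𝔭` with `π x₀ ≠ 0`, `L` torsion-free over the domain `O`) this holds
for every independent family `b` in `L[𝔭]` whose span is `L[𝔭]`: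

* `torP_inf_torI_eq_bot` : `L[𝔭] ∩ L[I] = 0`;
* `gram_det_ne_zero`, `gram_det_ne_zero_of_eta_ne_bot` : `hdet`;
* `noZeroSMulDivisors_of_isTorsionFree` : the adapter `Module.IsTorsionFree ⟹ NoZeroSMulDivisors`
  (over a domain) for the consumers of `annGen_of_eta_ne_bot`, `hM1_of_eta_ne_bot`, …;
* `stage_binders` : `hM1`, `hext`, `hdet` of one stage of `Ind.chain` from
  `(B, hperf, hadj, b, hli, hspan, hη)`.
-/

set_option linter.unusedSectionVars false

namespace Fermat.Agent.GE9.NumCrit.ModForm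

open Fermat.Agent.GE9.NumCrit Fermat.Agent.GE9 Submodule

/-- over a domain, `Module.IsTorsionFree` gives the (deprecated) `NoZeroSMulDivisors`. -/
theorem noZeroSMulDivisors_of_isTorsionFree (O L : Type*) [CommRing O] [IsDomain O]
    [AddCommGroup L] [Module O L] [Module.IsTorsionFree O L] : NoZeroSMulDivisors O L :=
  ⟨fun h => smul_eq_zero.mp h⟩

variable {O T L : Type*} [CommRing O] [CommRing T] [Algebra O T] {π : T →ₐ[O] O}
  [AddCommGroup L] [Module O L] [Module T L] [IsScalarTower O T L]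

/-- `L[𝔭] ∩ L[I] = 0` when `L` is torsion-free and `η ≠ 0`. -/
theorem eq_zero_of_mem_torP_of_mem_torI [IsDomain O] [Module.IsTorsionFree O L]
    {x₀ : T} (hx₀ : x₀ ∈ annP π) (hπx₀ : π x₀ ≠ 0) {l : L} (hP : l ∈ torP π L)
    (hI : l ∈ torI π L) : l = 0 := by
  have h1 : x₀ • l = 0 := hI x₀ hx₀
  have h2 : x₀ • l = π x₀ • l := smul_eq_of_mem_torP π hP x₀
  rw [h2] at h1
  exact (smul_eq_zero.mp h1).resolve_left hπx₀

/-- **`hdet`**: the Gram determinant of a basis of `L[𝔭]` is non-zero. -/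
theorem gram_det_ne_zero [IsDomain O] [Module.IsTorsionFree O L] (B : L →ₗ[O] L →ₗ[O] O)
    (hadj : ∀ (t : T) (x y : L), B (t • x) y = B x (t • y))
    (hnd : ∀ w : L, (∀ z : L, B z w = 0) → w = 0)
    {x₀ : T} (hx₀ : x₀ ∈ annP π) (hπx₀ : π x₀ ≠ 0)
    {d : ℕ} (b : Fin d → L) (hli : LinearIndependent O b)
    (hspan : span O (Set.range b) = torPO π L) : (Eta.gram B b).det ≠ 0 := by
  intro hdet
  obtain ⟨c, hc0, hc⟩ := Matrix.exists_mulVec_eq_zero_iff.mpr hdet
  set x : L := ∑ j, c j • b j with hx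
  have hxP : x ∈ torPO π L := by
    rw [← hspan]
    exact Submodule.sum_mem _ fun j _ => Submodule.smul_mem _ _ (subset_span ⟨j, rfl⟩)
  have hxo : x ∈ Eta.orth B (torPO π L) := by
    rw [← hspan, ← Eta.ker_evalMap, LinearMap.mem_ker]
    funext i
    rw [Eta.evalMap_apply, Pi.zero_apply, hx, map_sum]
    have := congrFun hc i
    rw [Matrix.mulVec, Pi.zero_apply] at this
    rw [← this]
    refine Finset.sum_congr rfl fun j _ => ?_
    show B (b i) (c j • b j) = Eta.gram B b i j * c j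
    rw [map_smul, smul_eq_mul, mul_comm, Eta.gram_apply]
  have hxI : x ∈ torI π L := orth_le_torI B hadj hnd hxo
  have hx0 : x = 0 := eq_zero_of_mem_torP_of_mem_torI hx₀ hπx₀ hxP hxI
  have := Fintype.linearIndependent_iff.mp hli c hx0
  exact hc0 (funext this)

/-- **`hdet`**, general form (`η_T ≠ 0`). -/
theorem gram_det_ne_zero_of_eta_ne_bot [IsDomain O] [Module.IsTorsionFree O L]
    (B : L →ₗ[O] L →ₗ[O] O)
    (hadj : ∀ (t : T) (x y : L), B (t • x) y = B x (t • y))
    (hnd : ∀ w : L, (∀ z : L, B z w = 0) → w = 0) (hη : etaIdeal π ≠ ⊥)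
    {d : ℕ} (b : Fin d → L) (hli : LinearIndependent O b)
    (hspan : span O (Set.range b) = torPO π L) : (Eta.gram B b).det ≠ 0 := by
  obtain ⟨e, he, he0⟩ : ∃ e ∈ etaIdeal π, e ≠ 0 := by
    by_contra hcon
    apply hη
    rw [Submodule.eq_bot_iff]
    intro e he
    by_contra he0
    exact hcon ⟨e, he, he0⟩
  obtain ⟨x₀, hx₀, hπx₀⟩ := (mem_etaIdeal π e).mp he
  exact gram_det_ne_zero B hadj hnd ((mem_annP π x₀).mpr hx₀) (by rw [hπx₀]; exact he0) b hli hspan

/-- **all binders of one stage** of `Ind.chain` owned by the module `L`: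
from a perfect `T`-adjoint pairing and an `O`-basis `b` of `L[𝔭]` (`η_T ≠ 0`):
`hM1`, `hext`, `hdet`. -/
theorem stage_binders [IsDomain O] [IsPrincipalIdealRing O] [Module.IsTorsionFree O T]
    [Module.Finite O L] [Module.Free O L] (B : L →ₗ[O] L →ₗ[O] O)
    (hperf : ∀ φ : L →ₗ[O] O, ∃ x : L, ∀ y, B y x = φ y)
    (hadj : ∀ (t : T) (x y : L), B (t • x) y = B x (t • y))
    (hη : etaIdeal π ≠ ⊥) [Finite (O ⧸ etaIdeal π)]
    {d : ℕ} (b : Fin d → L) (hli : LinearIndependent O b)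
    (hspan : span O (Set.range b) = torPO π L) :
    Nat.card (Eta.CongMod B (span O (Set.range b))) ≤ Ind.etaCard π ^ d ∧
      (∀ a : Fin d → O, ∃ x : L, ∀ i, B (b i) x = a i) ∧ (Eta.gram B b).det ≠ 0 := by
  have := noZeroSMulDivisors_of_isTorsionFree O T
  have := noZeroSMulDivisors_of_isTorsionFree O L
  have hnd : ∀ w : L, (∀ z : L, B z w = 0) → w = 0 := hnd_of_perfect B hperf
  exact ⟨hM1_of_eta_ne_bot B hadj hnd hη b hli hspan,
    hext_of_perfect B hperf b hli hspan,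
    gram_det_ne_zero_of_eta_ne_bot B hadj hnd hη b hli hspan⟩

end Fermat.Agent.GE9.NumCrit.ModForm
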