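import Mathlib
import Fermat.Agent.GE9.NumCrit.ModForm.Ann

/-!
# GE9-MODFORM-TORPGEN (S59 pre-work, helper50): membership in `L[𝔭]` on algebra generators

`y ∈ L[𝔭]` iff `T` acts on `y` through `π`; it suffices to check this on a set of `O`-algebra
generators of `T` (the Hecke operators `T_ℓ`, `U_q`).

* `mem_torP_iff_smul_eq` : `y ∈ L[𝔭] ↔ ∀ t, t • y = π t • y`;
* `mem_torP_of_adjoin(_range)` : enough on `G` with `Algebra.adjoin O G = ⊤`;
* `mem_torP_of_surjective` : enough on the images of generators of a source algebra `S ↠ T`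
  (the supplier of the binder `hmem` of `Eta.Sat.next_stage_three`).
-/

set_option linter.unusedSectionVars false

namespace Fermat.Agent.GE9.NumCrit.ModForm

variable {O T L : Type*} [CommRing O] [CommRing T] [Algebra O T] (π : T →ₐ[O] O)
  [AddCommGroup L] [Module O L] [Module T L] [IsScalarTower O T L]

theorem mem_torP_iff_smul_eq {y : L} : y ∈ torP π L ↔ ∀ t : T, t • y = π t • y := by
  constructor
  · intro hy t
    exact smul_eq_of_mem_torP π hy t
  · intro h t ht
    rw [h t, ht, zero_smul]

/-- the elements of `T` acting on `y` through `π` form a subalgebra. -/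
def actSub (y : L) : Subalgebra O T where
  carrier := {t | t • y = π t • y}
  mul_mem' := by
    intro a b ha hb
    show (a * b) • y = π (a * b) • y
    rw [mul_smul, hb, smul_comm, ha, smul_smul, map_mul, mul_comm]
  add_mem' := by
    intro a b ha hb
    show (a + b) • y = π (a + b) • y
    rw [add_smul, ha, hb, map_add, add_smul]
  algebraMap_mem' := by
    intro c
    show algebraMap O T c • y = π (algebraMap O T c) • y
    rw [AlgHom.commutes, algebraMap_smul, Algebra.algebraMap_self_apply]

theorem mem_actSub {y : L} {t : T} : t ∈ actSub π y ↔ t • y = π t • y := Iff.rfl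

/-- **membership in `L[𝔭]` may be checked on algebra generators.** -/
theorem mem_torP_of_adjoin {G : Set T} (hG : Algebra.adjoin O G = ⊤) {y : L}
    (hy : ∀ g ∈ G, g • y = π g • y) : y ∈ torP π L := by
  rw [mem_torP_iff_smul_eq]
  intro t
  have h1 : Algebra.adjoin O G ≤ actSub π y := Algebra.adjoin_le fun g hg => hy g hg
  have h2 : t ∈ Algebra.adjoin O G := by rw [hG]; exact Algebra.mem_top
  exact h1 h2

/-- the same with the generators given as a family. -/
theorem mem_torP_of_adjoin_range {ι : Type*} (g : ι → T)
    (hG : Algebra.adjoin O (Set.range g) = ⊤) {y : L}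
    (hy : ∀ i, g i • y = π (g i) • y) : y ∈ torP π L :=
  mem_torP_of_adjoin π hG (by rintro _ ⟨i, rfl⟩; exact hy i)

/-- generators given by a surjective algebra map from a polynomial-like source `S`
(e.g. `S = heckeAlgebra`, `χ : S →ₐ T` surjective): enough to test on the image of generators of
`S`. -/
theorem mem_torP_of_surjective {S : Type*} [CommRing S] [Algebra O S] (χ : S →ₐ[O] T)
    (hχ : Function.Surjective χ) {G : Set S} (hG : Algebra.adjoin O G = ⊤) {y : L}
    (hy : ∀ g ∈ G, χ g • y = π (χ g) • y) : y ∈ torP π L := by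
  apply mem_torP_of_adjoin π (G := χ '' G)
  · rw [← AlgHom.map_adjoin, hG, Algebra.map_top, AlgHom.range_eq_top]
    exact hχ
  · rintro _ ⟨g, hg, rfl⟩
    exact hy g hg

end Fermat.Agent.GE9.NumCrit.ModForm
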