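import Mathlib
import Fermat.Agent.GE9.NumCrit.GorArt
import Fermat.Agent.GE9.NumCrit.ModForm.Omega

/-!
# GE9-NUMCRIT-MODFORM, file 3: **(M2)** `T` Gorenstein, `rank L ≤ d · rank T`,
`#Ω_L = #(O ⧸ η_T) ^ d` ⟹ `L ≅ T ^ d`

`O` a DVR with uniformizer `ϖ`, `T` a finite free local `O`-algebra with augmentation `π`,
self-dual (`ω` generates `T^∨`, output of `(L3) exists_dual_generator`), `x₀ · ω = π` (so
`I = O · x₀`, `annGen_of_dual`), `L` a `T`-module finite free over `O`, `b` a basis of `L[𝔭]`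
indexed by `Fin d`.

* `exists_eq_smul_add_of_socle` : the socle of `T / ϖ` is spanned by `x₀`:
  `𝔪_T · t ⊆ ϖ T ⟹ t ∈ O · x₀ + ϖ T`;
* `mem_torP_of_smul_mem` : `L[𝔭]` is saturated in `L`;
* `coord_mem_of_map_mem` : for `φ : T ^ d → L`, `e_i ↦ l_i` with `x₀ • l_i = b i`:
  `φ v ∈ ϖ L ⟹ v ∈ ϖ T ^ d`  (`φ` is injective modulo `ϖ`);
* `free_of_smul_surjective` : if `x₀ • L = L[𝔭]` and `rank_O L ≤ d · rank_O T` then `φ` is
  bijective;
* `free_of_card_Omega_eq` : **(M2)** from the equality `#Ω_L = #(O ⧸ η_T) ^ d`.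
-/

set_option linter.unusedSectionVars false

namespace Fermat.Agent.GE9.NumCrit.ModForm

open Fermat.Agent.GE9.NumCrit IsLocalRing

variable {O T : Type*} [CommRing O] [IsDomain O] [IsDiscreteValuationRing O] [CommRing T]
  [IsLocalRing T] [Algebra O T] [Module.Finite O T] [Module.Free O T] {π : T →ₐ[O] O}

theorem ker_le_maximalIdeal (π : T →ₐ[O] O) {t : T} (ht : π t = 0) : t ∈ maximalIdeal T := by
  have hne : RingHom.ker (π : T →+* O) ≠ ⊤ := by
    intro h
    have h1 : (1 : T) ∈ RingHom.ker (π : T →+* O) := by rw [h]; exact Submodule.mem_top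
    rw [RingHom.mem_ker] at h1
    have h2 : (π : T →+* O) 1 = 1 := map_one _
    rw [h2] at h1
    exact one_ne_zero h1
  exact IsLocalRing.le_maximalIdeal hne (by rw [RingHom.mem_ker]; exact ht)

/-- a linear form with values in `ϖ O` is `ϖ` times a linear form. -/
theorem exists_smul_eq_of_forall_dvd {ϖ : O} (g : T →ₗ[O] O)
    (hg : ∀ x, ϖ ∣ g x) : ∃ g' : T →ₗ[O] O, g = ϖ • g' := by
  classical
  let bT := Module.Free.chooseBasis O T
  choose y hy using fun i => hg (bT i)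
  refine ⟨bT.constr O y, ?_⟩
  apply bT.ext
  intro i
  rw [LinearMap.smul_apply, Module.Basis.constr_basis, hy i, smul_eq_mul]

/-- **the socle of `T / ϖ` is spanned by `x₀`.** -/
theorem exists_eq_smul_add_of_socle {ϖ : O} (ω : T →ₗ[O] O)
    (hω : ∀ g : T →ₗ[O] O, ∃ a : T, ∀ x, g x = ω (a * x)) {x₀ : T}
    (hx₀ : ∀ x, π x = ω (x₀ * x)) {t : T}
    (ht : ∀ s ∈ maximalIdeal T, ∃ y : T, s * t = ϖ • y) :
    ∃ (c : O) (a : T), t = c • x₀ + ϖ • a := by
  -- `g := ω (t ·)` is `≡ g 1 • π` modulo `ϖ`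
  set g : T →ₗ[O] O := dualMap ω t with hg
  have hgs : ∀ s ∈ maximalIdeal T, ϖ ∣ g s := by
    intro s hs
    obtain ⟨y, hy⟩ := ht s hs
    refine ⟨ω y, ?_⟩
    rw [hg, dualMap_apply, mul_comm, hy, map_smul, smul_eq_mul]
  have hdiff : ∀ x, ϖ ∣ (g - g 1 • (π : T →ₐ[O] O).toLinearMap) x := by
    intro x
    have hx : x - algebraMap O T (π x) ∈ maximalIdeal T :=
      ker_le_maximalIdeal π (map_sub_algebraMap π x)
    have h1 := hgs _ hx
    have h2 : (g - g 1 • (π : T →ₐ[O] O).toLinearMap) x = g (x - algebraMap O T (π x)) := by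
      rw [LinearMap.sub_apply, LinearMap.smul_apply, map_sub, Algebra.algebraMap_eq_smul_one,
        map_smul, smul_eq_mul, smul_eq_mul]
      show g x - g 1 * π x = g x - π x * g 1
      ring
    rw [h2]
    exact h1
  obtain ⟨g', hg'⟩ := exists_smul_eq_of_forall_dvd _ hdiff
  obtain ⟨a, ha⟩ := hω g'
  refine ⟨g 1, a, ?_⟩
  have hsub : t - (g 1 • x₀ + ϖ • a) = 0 := by
    apply eq_zero_of_dual ω hω
    intro x
    have h3 : g x = g 1 * π x + ϖ * g' x := by
      have := congrArg (fun f : T →ₗ[O] O => f x) hg'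
      simp only [LinearMap.sub_apply, LinearMap.smul_apply, smul_eq_mul] at this
      have h4 : (π : T →ₐ[O] O).toLinearMap x = π x := rfl
      rw [h4] at this
      linear_combination this
    rw [sub_mul, map_sub, add_mul, map_add, smul_mul_assoc, map_smul, smul_mul_assoc, map_smul,
      ← hx₀, ← ha, smul_eq_mul, smul_eq_mul]
    have h5 : ω (t * x) = g x := rfl
    rw [h5, h3]
    ring
  exact sub_eq_zero.mp hsub

section Module

variable {L : Type*} [AddCommGroup L] [Module O L] [Module T L] [IsScalarTower O T L]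
  [Module.Finite O L] [Module.Free O L]

/-- `L[𝔭]` is saturated in `L`. -/
theorem mem_torP_of_smul_mem {c : O} (hc : c ≠ 0) {l : L} (hl : c • l ∈ torP π L) :
    l ∈ torP π L := by
  intro t ht
  have h1 := hl t ht
  rw [smul_comm] at h1
  exact (smul_eq_zero_iff_right hc).mp h1

variable {x₀ : T} {d : ℕ}

/-- the map `φ : T ^ d → L`, `e_i ↦ l_i`. -/
noncomputable abbrev phi (l : Fin d → L) : (Fin d → T) →ₗ[T] L := Fintype.linearCombination T l

theorem phi_apply (l : Fin d → L) (v : Fin d → T) : phi l v = ∑ i, v i • l i :=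
  Fintype.linearCombination_apply T l v

/-- **one step**: a vector which is a socle vector mod `ϖ` and is mapped into `ϖ L` is in
`ϖ T ^ d`. -/
theorem step {ϖ : O} (hϖ0 : ϖ ≠ 0) (ω : T →ₗ[O] O)
    (hω : ∀ g : T →ₗ[O] O, ∃ a : T, ∀ x, g x = ω (a * x))
    (hx₀ : ∀ x, π x = ω (x₀ * x)) (b : Module.Basis (Fin d) O (torPO π L)) (l : Fin d → L)
    (hl : ∀ i, x₀ • l i = (b i : L)) (w : Fin d → T)
    (hw : ∀ s ∈ maximalIdeal T, ∀ i, ∃ y : T, s * w i = ϖ • y)
    (hφ : ∃ l' : L, phi l w = ϖ • l') (i : Fin d) : ∃ y : T, w i = ϖ • y := by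
  choose c a hca using fun i =>
    exists_eq_smul_add_of_socle (π := π) ω hω hx₀ (fun s hs => hw s hs i)
  obtain ⟨l', hl'⟩ := hφ
  -- `∑ c i • b i = ϖ • (l' - ∑ a i • l i)`
  have h1 : ((∑ i, c i • b i : torPO π L) : L) = ϖ • (l' - ∑ i, a i • l i) := by
    rw [smul_sub, ← hl', phi_apply, Finset.smul_sum, ← Finset.sum_sub_distrib]
    rw [Submodule.coe_sum]
    refine Finset.sum_congr rfl fun i _ => ?_
    rw [hca i, add_smul, smul_assoc, hl i, smul_assoc, add_sub_cancel_right]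
    rfl
  have h2 : l' - ∑ i, a i • l i ∈ torP π L := by
    apply mem_torP_of_smul_mem (π := π) hϖ0
    rw [← h1]
    exact (∑ i, c i • b i : torPO π L).2
  have h3 : (∑ i, c i • b i : torPO π L) = ϖ • (⟨_, h2⟩ : torPO π L) := Subtype.ext h1
  have h4 : c i = ϖ * b.repr (⟨_, h2⟩ : torPO π L) i := by
    have := congrArg (fun q => b.repr q i) h3
    simp only [map_sum, map_smul, Finsupp.smul_apply, smul_eq_mul, Finsupp.coe_finsetSum,
      Finset.sum_apply, Module.Basis.repr_self, Finsupp.single_apply] at this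
    simpa using this
  refine ⟨b.repr (⟨_, h2⟩ : torPO π L) i • x₀ + a i, ?_⟩
  rw [hca i, h4, smul_add, smul_smul]

/-- **`φ` is injective modulo `ϖ`.** -/
theorem coord_mem_of_map_mem {ϖ : O} (hϖ : Irreducible ϖ) (ω : T →ₗ[O] O)
    (hω : ∀ g : T →ₗ[O] O, ∃ a : T, ∀ x, g x = ω (a * x))
    (hx₀ : ∀ x, π x = ω (x₀ * x)) (b : Module.Basis (Fin d) O (torPO π L)) (l : Fin d → L)
    (hl : ∀ i, x₀ • l i = (b i : L)) (v : Fin d → T) (hφ : ∃ l' : L, phi l v = ϖ • l')
    (i : Fin d) : ∃ y : T, v i = ϖ • y := by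
  have hϖ0 : ϖ ≠ 0 := hϖ.ne_zero
  obtain ⟨n, hn⟩ := GorArt.exists_pow_maximalIdeal_le (A := T) ϖ hϖ
  -- downward induction
  have key : ∀ k : ℕ, k ≤ n → ∀ s ∈ maximalIdeal T ^ (n - k), ∀ i, ∃ y : T, s * v i = ϖ • y := by
    intro k
    induction k with
    | zero =>
      intro _ s hs i
      have h1 : s * v i ∈ Ideal.span {algebraMap O T ϖ} :=
        Ideal.mul_mem_right _ _ (hn (by simpa using hs))
      obtain ⟨y, hy⟩ := (GorArt.mem_span_algebraMap_iff ϖ _).mp h1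
      exact ⟨y, hy.symm⟩
    | succ k ih =>
      intro hk s hs i
      have ih' := ih (Nat.le_of_succ_le hk)
      have hnk : n - k = (n - (k + 1)) + 1 := by omega
      refine step (π := π) hϖ0 ω hω hx₀ b l hl (fun j => s * v j) ?_ ?_ i
      · intro u hu j
        have hus : u * s ∈ maximalIdeal T ^ (n - k) := by
          rw [hnk, pow_succ']
          exact Ideal.mul_mem_mul hu hs
        obtain ⟨y, hy⟩ := ih' (u * s) hus j
        exact ⟨y, by rw [← mul_assoc, hy]⟩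
      · obtain ⟨l', hl'⟩ := hφ
        refine ⟨s • l', ?_⟩
        have h2 : (fun j => s * v j) = s • v := rfl
        rw [h2, map_smul, hl', smul_comm]
  obtain ⟨y, hy⟩ := key n le_rfl 1 (by simp) i
  exact ⟨y, by rw [← hy, one_mul]⟩

/-- **`φ` is bijective** as soon as `x₀ • l_i` is a basis of `L[𝔭]` and
`rank_O L ≤ d · rank_O T`. -/
theorem phi_bijective {ϖ : O} (hϖ : Irreducible ϖ) (ω : T →ₗ[O] O)
    (hω : ∀ g : T →ₗ[O] O, ∃ a : T, ∀ x, g x = ω (a * x))
    (hx₀ : ∀ x, π x = ω (x₀ * x)) (b : Module.Basis (Fin d) O (torPO π L)) (l : Fin d → L)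
    (hl : ∀ i, x₀ • l i = (b i : L))
    (hrank : Module.finrank O L ≤ d * Module.finrank O T) :
    Function.Bijective (phi (T := T) l) := by
  have hϖ0 : ϖ ≠ 0 := hϖ.ne_zero
  set φO : (Fin d → T) →ₗ[O] L := (phi (T := T) l).restrictScalars O with hφO
  have hmod : ∀ v : Fin d → T, (∃ l' : L, φO v = ϖ • l') → ∃ v' : Fin d → T, v = ϖ • v' := by
    intro v hv
    choose y hy using fun i => coord_mem_of_map_mem (π := π) hϖ ω hω hx₀ b l hl v hv i
    exact ⟨y, funext fun i => by rw [Pi.smul_apply, hy i]⟩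
  -- injectivity: `ker φ = ϖ ker φ`, Nakayama
  have hinj : Function.Injective φO := by
    rw [← LinearMap.ker_eq_bot]
    have hle : LinearMap.ker φO ≤ (maximalIdeal O) • LinearMap.ker φO := by
      intro v hv
      rw [LinearMap.mem_ker] at hv
      obtain ⟨v', rfl⟩ := hmod v ⟨0, by rw [hv, smul_zero]⟩
      have hv' : v' ∈ LinearMap.ker φO := by
        rw [LinearMap.mem_ker]
        have hv2 : ϖ • φO v' = 0 := by rw [← map_smul]; exact hv
        exact (smul_eq_zero_iff_right hϖ0).mp hv2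
      exact Submodule.smul_mem_smul
        (by rw [hϖ.maximalIdeal_eq]; exact Ideal.mem_span_singleton_self ϖ) hv'
    have hfg : (LinearMap.ker φO).FG := IsNoetherian.noetherian _
    exact Submodule.eq_bot_of_le_smul_of_le_jacobson_bot _ _ hfg hle
      (by rw [IsLocalRing.jacobson_eq_maximalIdeal ⊥ bot_ne_top])
  -- the cokernel is torsion
  have hfr : Module.finrank O (Fin d → T) = d * Module.finrank O T := by
    rw [Module.finrank_pi_fintype, Finset.sum_const, Finset.card_univ, Fintype.card_fin,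
      smul_eq_mul]
  have hrange : Module.finrank O (LinearMap.range φO) = d * Module.finrank O T := by
    rw [LinearMap.finrank_range_of_inj hinj, hfr]
  have hquot : Module.finrank O (L ⧸ LinearMap.range φO) = 0 := by
    have := Submodule.finrank_quotient_add_finrank (LinearMap.range φO)
    omega
  have htors : Module.IsTorsion O (L ⧸ LinearMap.range φO) :=
    Module.finrank_eq_zero_iff_isTorsion.mp hquot
  -- `ϖ ^ n • l ∈ range φ ⟹ l ∈ range φ`
  have hsat : ∀ n : ℕ, ∀ l₁ : L, ϖ ^ n • l₁ ∈ LinearMap.range φO → l₁ ∈ LinearMap.range φO := by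
    intro n
    induction n with
    | zero => intro l₁ h; simpa using h
    | succ n ih =>
      intro l₁ h
      obtain ⟨v, hv⟩ := h
      have h1 : ∃ l' : L, φO v = ϖ • l' := ⟨ϖ ^ n • l₁, by rw [hv, pow_succ', mul_smul]⟩
      obtain ⟨v', rfl⟩ := hmod v h1
      apply ih
      refine ⟨v', ?_⟩
      rw [map_smul, pow_succ', mul_smul] at hv
      exact (smul_right_injective L hϖ0) hv
  have hsurj : Function.Surjective φO := by
    intro l₁
    obtain ⟨a, ha⟩ := @htors (Submodule.Quotient.mk l₁)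
    have ha0 : (a : O) ≠ 0 := nonZeroDivisors.coe_ne_zero a
    have h1 : (a : O) • l₁ ∈ LinearMap.range φO := by
      rw [← Submodule.Quotient.mk_eq_zero, Submodule.Quotient.mk_smul]
      exact ha
    obtain ⟨n, u, hu⟩ := IsDiscreteValuationRing.eq_unit_mul_pow_irreducible ha0 hϖ
    have h2 : ϖ ^ n • l₁ ∈ LinearMap.range φO := by
      have h3 : ϖ ^ n • l₁ = (↑u⁻¹ : O) • ((a : O) • l₁) := by
        rw [hu, smul_smul, ← mul_assoc, Units.inv_mul, one_mul]
      rw [h3]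
      exact Submodule.smul_mem _ _ h1
    exact hsat n l₁ h2
  exact ⟨hinj, hsurj⟩

/-- **(M2), from `x₀ • L = L[𝔭]`.** -/
theorem free_of_smul_surjective {ϖ : O} (hϖ : Irreducible ϖ) (ω : T →ₗ[O] O)
    (hω : ∀ g : T →ₗ[O] O, ∃ a : T, ∀ x, g x = ω (a * x))
    (hx₀ : ∀ x, π x = ω (x₀ * x)) (b : Module.Basis (Fin d) O (torPO π L))
    (hsurj : ∀ p ∈ torP π L, ∃ l : L, x₀ • l = p)
    (hrank : Module.finrank O L ≤ d * Module.finrank O T) :
    Nonempty ((Fin d → T) ≃ₗ[T] L) := by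
  choose l hl using fun i => hsurj (b i : L) (b i).2
  exact ⟨LinearEquiv.ofBijective (phi (T := T) l) (phi_bijective (π := π) hϖ ω hω hx₀ b l hl hrank)⟩

/-- **(M2)**: `T` Gorenstein (dual generator `ω`), `rank_O L ≤ d · rank_O T`,
`#Ω_L = #(O ⧸ η_T) ^ d` (`d = rank_O L[𝔭]`) ⟹ `L ≅ T ^ d`. -/
theorem free_of_card_Omega_eq {ϖ : O} (hϖ : Irreducible ϖ) (ω : T →ₗ[O] O)
    (hω : ∀ g : T →ₗ[O] O, ∃ a : T, ∀ x, g x = ω (a * x))
    (b : Module.Basis (Fin d) O (torPO π L)) [Finite (O ⧸ etaIdeal π)]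
    (hcard : Nat.card (Omega π L) = Nat.card (O ⧸ etaIdeal π) ^ d)
    (hrank : Module.finrank O L ≤ d * Module.finrank O T) :
    Nonempty ((Fin d → T) ≃ₗ[T] L) := by
  obtain ⟨x₀, hx₀, hgen⟩ := annGen_of_dual π ω hω
  exact free_of_smul_surjective (π := π) hϖ ω hω hx₀ b
    (fun p hp => exists_smul_eq_of_card_eq_eta hgen b hcard hp) hrank

/-- **(M1) + (M2)**: if `#(O ⧸ η_T) ^ d ≤ #Ω_L` then equality holds and `L ≅ T ^ d`. -/
theorem free_of_card_le {ϖ : O} (hϖ : Irreducible ϖ) (ω : T →ₗ[O] O)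
    (hω : ∀ g : T →ₗ[O] O, ∃ a : T, ∀ x, g x = ω (a * x))
    (b : Module.Basis (Fin d) O (torPO π L)) [Finite (O ⧸ etaIdeal π)]
    (hcard : Nat.card (O ⧸ etaIdeal π) ^ d ≤ Nat.card (Omega π L))
    (hrank : Module.finrank O L ≤ d * Module.finrank O T) :
    Nat.card (Omega π L) = Nat.card (O ⧸ etaIdeal π) ^ d ∧ Nonempty ((Fin d → T) ≃ₗ[T] L) := by
  obtain ⟨x₀, -, hgen⟩ := annGen_of_dual π ω hω
  have heq : Nat.card (Omega π L) = Nat.card (O ⧸ etaIdeal π) ^ d :=
    le_antisymm (card_Omega_le_eta hgen b) hcard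
  exact ⟨heq, free_of_card_Omega_eq (π := π) hϖ ω hω b heq hrank⟩

/-- **(M2)** with `d := rank_O L[𝔭]` (no basis in the statement). -/
theorem free_of_card_Omega_eq_finrank {ϖ : O} (hϖ : Irreducible ϖ) (ω : T →ₗ[O] O)
    (hω : ∀ g : T →ₗ[O] O, ∃ a : T, ∀ x, g x = ω (a * x)) [Finite (O ⧸ etaIdeal π)]
    (hcard : Nat.card (Omega π L) =
      Nat.card (O ⧸ etaIdeal π) ^ Module.finrank O (torPO π L))
    (hrank : Module.finrank O L ≤ Module.finrank O (torPO π L) * Module.finrank O T) :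
    Nonempty ((Fin (Module.finrank O (torPO π L)) → T) ≃ₗ[T] L) :=
  free_of_card_Omega_eq (π := π) hϖ ω hω (Module.finBasis O (torPO π L)) hcard hrank

/-- **(M1)** with `d := rank_O L[𝔭]`. -/
theorem card_Omega_le_eta_finrank (ω : T →ₗ[O] O)
    (hω : ∀ g : T →ₗ[O] O, ∃ a : T, ∀ x, g x = ω (a * x)) [Finite (O ⧸ etaIdeal π)] :
    Nat.card (Omega π L) ≤ Nat.card (O ⧸ etaIdeal π) ^ Module.finrank O (torPO π L) := by
  obtain ⟨x₀, -, hgen⟩ := annGen_of_dual π ω hω
  exact card_Omega_le_eta hgen (Module.finBasis O (torPO π L))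

end Module

end Fermat.Agent.GE9.NumCrit.ModForm
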