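import Mathlib
import Fermat.Agent.GE9.Ind.Step
import Fermat.Agent.GE9.NumCrit.CI
import Fermat.Agent.GE9.NumCrit.Tate
import Fermat.Agent.GE9.NumCrit.ModForm.Free
import Fermat.Agent.GE9.NumCrit.ModForm.EtaDet

/-!
# GE9-R4-D (S59 pre-work, helper50): `stage_free` — the module form of the numerical criterion
at ONE concrete stage (helper80, board 7564 / 7585 (S1))

`φ' : R ↠ T` (`T` finite free over the complete DVR `O`), a presentation `ρ' : O⟦X⟧ ↠ R`
compatible with the augmentation `πO' : T → O`, `η_T ≠ 0`, a `T`-module `L` finite free over `O`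
with a `T`-adjoint non-degenerate pairing `B` and an `O`-basis `b` of `L[𝔭]` (`d` elements), and a
number `a` with

  `#(𝔭_R / 𝔭_R²) ≤ a`   and   `a ^ d ≤ #(L ⧸ (L[𝔭] ⊔ L[𝔭]^⊥))`.

Then (`Ind.step` with `c = 1` + `hM1` + c.i. ⟹ Gorenstein + `(M2)`):
`φ'` is bijective, `T` is a complete intersection, `#Φ_R = #(O ⧸ η_T)`, `#Ω_L = #(O ⧸ η_T) ^ d`,
the `O`-dual of `T` is generated by one element and — if `rank_O L ≤ d · rank_O T` — `L ≅ T ^ d`.

* `finite_quotient_of_ne_bot` : `I ≠ ⊥ ⟹ Finite (O ⧸ I)`;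
* `exists_dual_generator_of_ci` : a finite `O`-algebra with a c.i. presentation is local and its
  dual is generated by one element;
* `stage_ci`, `stage_free`.
-/

set_option linter.unusedSectionVars false

namespace Fermat.Agent.GE9.NumCrit.ModForm

open Fermat.Agent.GE9.NumCrit Fermat.Agent.GE9 Fermat.Agent.GE9.Ind IsLocalRing MvPowerSeries
  Submodule

variable {O : Type*} [CommRing O] [IsDomain O] [IsDiscreteValuationRing O]

/-- a non-zero ideal of a DVR with finite residue field has finite quotient. -/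
theorem finite_quotient_of_ne_bot [Finite (ResidueField O)] (I : Ideal O) (hI : I ≠ ⊥) :
    Finite (O ⧸ I) := by
  obtain ⟨e, he⟩ : ∃ e : O, I = Ideal.span {e} := ⟨_, (Ideal.span_singleton_generator I).symm⟩
  have he0 : e ≠ 0 := by
    intro h0
    apply hI
    rw [he, h0, Ideal.span_singleton_eq_bot]
  rw [he]
  exact finite_quotient_span he0

variable [IsAdicComplete (maximalIdeal O) O] [Finite (ResidueField O)]

/-- **complete intersection ⟹ local + Gorenstein**: a finite `O`-algebra `T` presented as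
`ρ : O⟦X₁..X_m⟧ ↠ T` with `ker ρ = (f₁..f_m)`, compatible with an augmentation. -/
theorem exists_dual_generator_of_ci {T : Type*} [CommRing T] [Algebra O T] [Module.Finite O T]
    (πT : T →ₐ[O] O) {m : ℕ} (ρ : MvPowerSeries (Fin m) O →ₐ[O] T) (hρ : Function.Surjective ρ)
    (hρε : ∀ u, πT (ρ u) = constantCoeff u)
    (f : Fin m → MvPowerSeries (Fin m) O) (hker : RingHom.ker ρ = Ideal.span (Set.range f)) :
    IsLocalRing T ∧ ∃ ω : T →ₗ[O] O, ∀ g : T →ₗ[O] O, ∃ a : T, ∀ x, g x = ω (a * x) := by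
  obtain ⟨ϖ, hϖ⟩ := IsDiscreteValuationRing.exists_irreducible O
  have hf : ∀ i, f i ∈ augIdeal O m := by
    intro i
    have h1 : f i ∈ RingHom.ker ρ := by rw [hker]; exact Ideal.subset_span ⟨i, rfl⟩
    have h2 : ρ (f i) = 0 := h1
    rw [mem_augIdeal, ← hρε, h2, map_zero]
  let e₀ : (MvPowerSeries (Fin m) O ⧸ RingHom.ker ρ) ≃ₐ[O] T :=
    Ideal.quotientKerAlgEquivOfSurjective hρ
  have hfin : Module.Finite O (MvPowerSeries (Fin m) O ⧸ RingHom.ker ρ) :=
    Module.Finite.equiv e₀.symm.toLinearEquiv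
  obtain ⟨n, hn⟩ := Tate.exists_pow_le_of_finite hϖ (RingHom.ker ρ)
  rw [hker] at hn
  obtain ⟨-, -, hloc, ω₀, hω₀⟩ := ci_quotient_facts hϖ f hf n hn
  let e : (MvPowerSeries (Fin m) O ⧸ Ideal.span (Set.range f)) ≃ₐ[O] T :=
    (Ideal.quotientEquivAlgOfEq O hker.symm).trans e₀
  refine ⟨e.toRingEquiv.isLocalRing, ω₀ ∘ₗ e.symm.toLinearMap, fun g => ?_⟩
  obtain ⟨a₀, ha₀⟩ := hω₀ (g ∘ₗ e.toLinearMap)
  refine ⟨e a₀, fun x => ?_⟩
  have h1 := ha₀ (e.symm x)
  rw [LinearMap.comp_apply, AlgEquiv.toLinearMap_apply, AlgEquiv.apply_symm_apply] at h1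
  have h2 : e.symm (e a₀ * x) = a₀ * e.symm x := by
    rw [map_mul, AlgEquiv.symm_apply_apply]
  rw [h1, LinearMap.comp_apply, AlgEquiv.toLinearMap_apply, h2]

section Stage

variable {R T L : Type*} [CommRing R] [Algebra O R] [CommRing T] [Algebra O T]
  [Module.Finite O T] [Module.Free O T]
  [AddCommGroup L] [Module O L] [Module T L] [IsScalarTower O T L]

/-- **ring half of the stage**: `Ind.step` at `c = 1`, with `hM1` discharged on `L`. -/
theorem stage_ci (φ' : R →ₐ[O] T) (hφ' : Function.Surjective φ') (πO' : T →ₐ[O] O) {m : ℕ}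
    (ρ' : MvPowerSeries (Fin m) O →ₐ[O] R) (hρ' : Function.Surjective ρ')
    (hρε' : ∀ u, πO' (φ' (ρ' u)) = constantCoeff u) (hη' : etaIdeal πO' ≠ ⊥)
    {d : ℕ} (hd : d ≠ 0) (a : ℕ) [Finite (RingHom.ker (πO'.comp φ')).Cotangent]
    (hgrow : tanCard (πO'.comp φ') ≤ a)
    (B : L →ₗ[O] L →ₗ[O] O) (hadj : ∀ (t : T) (x y : L), B (t • x) y = B x (t • y))
    (hnd : ∀ w : L, (∀ z : L, B z w = 0) → w = 0)
    (b : Fin d → L) (hli : LinearIndependent O b) (hspan : span O (Set.range b) = torPO πO' L)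
    (hw : a ^ d ≤ Nat.card (Eta.CongMod B (span O (Set.range b)))) :
    Function.Bijective φ' ∧
      (∃ f : Fin m → MvPowerSeries (Fin m) O,
        RingHom.ker (φ'.comp ρ') = Ideal.span (Set.range f)) ∧
      tanCard (πO'.comp φ') = etaCard πO' ∧ tanCard (πO'.comp φ') = a ∧
      Nat.card (Eta.CongMod B (span O (Set.range b))) = etaCard πO' ^ d := by
  have := noZeroSMulDivisors_of_isTorsionFree O T
  have : Finite (O ⧸ etaIdeal πO') := finite_quotient_of_ne_bot _ hη'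
  have hM1 := hM1_of_eta_ne_bot B hadj hnd hη' b hli hspan
  obtain ⟨h1, h2, h3, h4, h5⟩ := Fermat.Agent.GE9.Ind.step φ' hφ' πO' ρ' hρ' hρε' hη' hd a 1
    (Nat.card (Eta.CongMod B (span O (Set.range b)))) (by rwa [mul_one]) (by rwa [mul_one]) hM1
  exact ⟨h1, h2, h3, by rw [h4, mul_one], h5⟩

/-- **`stage_free`** (R4-D, strong form): the stage is a complete intersection, Gorenstein, and
the stage module is free of rank `d`. -/
theorem stage_free [Module.Finite O L] [Module.Free O L]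
    (φ' : R →ₐ[O] T) (hφ' : Function.Surjective φ') (πO' : T →ₐ[O] O) {m : ℕ}
    (ρ' : MvPowerSeries (Fin m) O →ₐ[O] R) (hρ' : Function.Surjective ρ')
    (hρε' : ∀ u, πO' (φ' (ρ' u)) = constantCoeff u) (hη' : etaIdeal πO' ≠ ⊥)
    {d : ℕ} (hd : d ≠ 0) (a : ℕ) [Finite (RingHom.ker (πO'.comp φ')).Cotangent]
    (hgrow : tanCard (πO'.comp φ') ≤ a)
    (B : L →ₗ[O] L →ₗ[O] O) (hadj : ∀ (t : T) (x y : L), B (t • x) y = B x (t • y))
    (hnd : ∀ w : L, (∀ z : L, B z w = 0) → w = 0)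
    (b : Fin d → L) (hli : LinearIndependent O b) (hspan : span O (Set.range b) = torPO πO' L)
    (hw : a ^ d ≤ Nat.card (Eta.CongMod B (span O (Set.range b))))
    (hrank : Module.finrank O L ≤ d * Module.finrank O T) :
    Function.Bijective φ' ∧
      (∃ f : Fin m → MvPowerSeries (Fin m) O,
        RingHom.ker (φ'.comp ρ') = Ideal.span (Set.range f)) ∧
      tanCard (πO'.comp φ') = etaCard πO' ∧ tanCard (πO'.comp φ') = a ∧
      Nat.card (Eta.CongMod B (span O (Set.range b))) = etaCard πO' ^ d ∧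
      (∃ ω : T →ₗ[O] O, ∀ g : T →ₗ[O] O, ∃ t : T, ∀ x, g x = ω (t * x)) ∧
      Nonempty ((Fin d → T) ≃ₗ[T] L) := by
  obtain ⟨hbij, ⟨f, hf⟩, h3, h4, h5⟩ :=
    stage_ci φ' hφ' πO' ρ' hρ' hρε' hη' hd a hgrow B hadj hnd b hli hspan hw
  obtain ⟨hloc, ω, hω⟩ := exists_dual_generator_of_ci πO' (φ'.comp ρ') (hφ'.comp hρ') hρε' f hf
  have := noZeroSMulDivisors_of_isTorsionFree O T
  have : Finite (O ⧸ etaIdeal πO') := finite_quotient_of_ne_bot _ hη'
  obtain ⟨ϖ, hϖ⟩ := IsDiscreteValuationRing.exists_irreducible O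
  obtain ⟨x₀, hπx₀, hgen⟩ := annGen_of_eta_ne_bot πO' hη'
  have hΩ : Nat.card (Omega πO' L) = Nat.card (O ⧸ etaIdeal πO') ^ d := by
    rw [← card_congMod_span_eq_card_Omega B hadj hnd hgen.mem hπx₀ b hspan, h5]
    rfl
  exact ⟨hbij, ⟨f, hf⟩, h3, h4, h5, ⟨ω, hω⟩,
    free_of_card_Omega_eq (π := πO') hϖ ω hω (basisOfSpan b hli hspan) hΩ hrank⟩

end Stage

end Fermat.Agent.GE9.NumCrit.ModForm
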